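/-
T1B (S44), EMBED44, E[p]-side (helper48), part 1: pure linear algebra (Mathlib + the rank-two
Cayley–Hamilton of `Flat83/CarayolBLR`).

`k` a field, `V` a `k`-vector space of dimension two, `ρV : G →* End k V`.

* `det_trace_of_relation` (**the determinant trick**, no Weil pairing): if `d : G →* kˣ` is a CHARACTER
  and `a : G → k` a function with `ρV g + d g • ρV g⁻¹ = a g • 1` for all `g`, and some `ρV g₀` is not
  a scalar, then `det (ρV g) = d g` and `tr (ρV g) = a g` for ALL `g`.
  [For non-scalar `ρV g` compare with Cayley–Hamilton; `d / det` is a character which is trivial off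
  the proper subgroup of scalar elements, hence trivial.]
* `exists_not_scalar_of_irreducible` : an irreducible two-dimensional `V` has a non-scalar `ρV g₀`.
* `span_eq_top_of_irreducible_of_involution` : `V` irreducible, `c ∈ G` with `ρV c * ρV c = 1`,
  `det (ρV c) = -1`, `2 ≠ 0` in `k`: then `span k (range ρV) = End k V` (absolute irreducibility in
  the form consumed by Boston–Lenstra–Ribet).
  [`e = (1 + c)/2`, `e' = (1 - c)/2` are complementary rank-one idempotents in the span; by
  irreducibility the span contains the two off-diagonal matrix units as well.]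
* `charpoly_eq_of_finrank_two` : `charpoly f = X² - tr f · X + det f`.
-/
import Mathlib
import Fermat.Agent.Flat83.CarayolBLR

set_option autoImplicit false
set_option linter.unusedSectionVars false
set_option linter.style.haveILetI false

noncomputable section

namespace Fermat.Agent.T1B.Embed48.Abstract

open Module Polynomial

variable {k : Type*} [Field k] {V : Type*} [AddCommGroup V] [Module k V] [Module.Finite k V]
  {G : Type*} [Group G] (ρV : G →* End k V)

theorem rho_mul_inv (g : G) : ρV g * ρV g⁻¹ = 1 := by rw [← map_mul, mul_inv_cancel, map_one]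

theorem rho_inv_mul (g : G) : ρV g⁻¹ * ρV g = 1 := by rw [← map_mul, inv_mul_cancel, map_one]

theorem nontrivial_of_finrank_two (h2 : Module.finrank k V = 2) : Nontrivial V :=
  Module.nontrivial_of_finrank_pos (R := k) (by rw [h2]; norm_num)

theorem one_ne_zero_end (h2 : Module.finrank k V = 2) : (1 : End k V) ≠ 0 := by
  haveI := nontrivial_of_finrank_two h2
  exact one_ne_zero

theorem smul_one_eq_zero_iff (h2 : Module.finrank k V = 2) (c : k) :
    c • (1 : End k V) = 0 ↔ c = 0 := by
  constructor
  · intro h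
    rcases smul_eq_zero.mp h with h | h
    · exact h
    · exact absurd h (one_ne_zero_end h2)
  · rintro rfl
    exact zero_smul _ _

/-- a scalar value of `ρV` has a nonzero scalar. -/
theorem scalar_ne_zero (h2 : Module.finrank k V = 2) {g : G} {c : k} (hc : ρV g = c • 1) :
    c ≠ 0 := by
  rintro rfl
  have h := rho_mul_inv ρV g
  rw [hc, zero_smul, zero_mul] at h
  exact one_ne_zero_end h2 h.symm

/-- the determinant of `ρV g` is nonzero. -/
theorem det_rho_ne_zero (g : G) : LinearMap.det (ρV g) ≠ 0 := by
  intro h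
  have h1 := congrArg LinearMap.det (rho_mul_inv ρV g)
  rw [map_mul, h, zero_mul, map_one] at h1
  exact zero_ne_one h1

/-- **Comparison of the relation with Cayley–Hamilton.** -/
theorem sub_smul_inv_eq (h2 : Module.finrank k V = 2) (d : G →* kˣ) (a : G → k)
    (hrel : ∀ g, ρV g + ((d g : kˣ) : k) • ρV g⁻¹ = a g • (1 : End k V)) (g : G) :
    (((d g : kˣ) : k) - LinearMap.det (ρV g)) • ρV g⁻¹ =
      (a g - LinearMap.trace k V (ρV g)) • (1 : End k V) := by
  have hCH := Fermat.Agent.Flat83.CarayolBLR.end_add_det_smul_inv h2 (ρV g) (ρV g⁻¹)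
    (rho_mul_inv ρV g)
  rw [sub_smul, sub_smul, ← hrel g, ← hCH]
  abel

/-- a non-scalar `ρV g` has `det = d g`. -/
theorem det_eq_of_not_scalar (h2 : Module.finrank k V = 2) (d : G →* kˣ) (a : G → k)
    (hrel : ∀ g, ρV g + ((d g : kˣ) : k) • ρV g⁻¹ = a g • (1 : End k V)) {g : G}
    (hg : ¬ ∃ c : k, ρV g = c • 1) : LinearMap.det (ρV g) = ((d g : kˣ) : k) := by
  by_contra hne
  apply hg
  have hδ : ((d g : kˣ) : k) - LinearMap.det (ρV g) ≠ 0 := sub_ne_zero.mpr (Ne.symm hne)
  have h := sub_smul_inv_eq ρV h2 d a hrel g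
  -- `ρV g⁻¹` is a scalar
  have hinv : ρV g⁻¹ = ((((d g : kˣ) : k) - LinearMap.det (ρV g))⁻¹ *
      (a g - LinearMap.trace k V (ρV g))) • (1 : End k V) := by
    rw [mul_smul, ← h, smul_smul, inv_mul_cancel₀ hδ, one_smul]
  set c := (((d g : kˣ) : k) - LinearMap.det (ρV g))⁻¹ * (a g - LinearMap.trace k V (ρV g))
  have hc0 : c ≠ 0 := scalar_ne_zero ρV h2 hinv
  refine ⟨c⁻¹, ?_⟩
  have h1 := rho_mul_inv ρV g
  rw [hinv, mul_smul_comm, mul_one] at h1
  rw [← h1, smul_smul, inv_mul_cancel₀ hc0, one_smul]

/-- **The determinant trick.** -/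
theorem det_trace_of_relation (h2 : Module.finrank k V = 2) (d : G →* kˣ) (a : G → k)
    (hrel : ∀ g, ρV g + ((d g : kˣ) : k) • ρV g⁻¹ = a g • (1 : End k V))
    (hns : ∃ g₀ : G, ¬ ∃ c : k, ρV g₀ = c • 1) (g : G) :
    LinearMap.det (ρV g) = ((d g : kˣ) : k) ∧ LinearMap.trace k V (ρV g) = a g := by
  obtain ⟨g₀, hg₀⟩ := hns
  have hdet : LinearMap.det (ρV g) = ((d g : kˣ) : k) := by
    by_cases hg : ∃ c : k, ρV g = c • 1
    · obtain ⟨c, hc⟩ := hg
      have hc0 : c ≠ 0 := scalar_ne_zero ρV h2 hc
      -- `g₀ g` is not scalar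
      have hns' : ¬ ∃ c' : k, ρV (g₀ * g) = c' • 1 := by
        rintro ⟨c', hc'⟩
        apply hg₀
        refine ⟨c⁻¹ * c', ?_⟩
        rw [map_mul, hc, mul_smul_comm, mul_one] at hc'
        rw [mul_smul, ← hc', smul_smul, inv_mul_cancel₀ hc0, one_smul]
      have e1 := det_eq_of_not_scalar ρV h2 d a hrel hns'
      have e0 := det_eq_of_not_scalar ρV h2 d a hrel hg₀
      rw [map_mul, map_mul, map_mul, Units.val_mul, e0] at e1
      exact mul_left_cancel₀ (Units.ne_zero (d g₀)) e1
    · exact det_eq_of_not_scalar ρV h2 d a hrel hg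
  refine ⟨hdet, ?_⟩
  have h := sub_smul_inv_eq ρV h2 d a hrel g
  rw [hdet, sub_self, zero_smul] at h
  have := (smul_one_eq_zero_iff h2 _).mp h.symm
  exact (sub_eq_zero.mp this).symm

/-! ### Irreducibility -/

/-- an irreducible two-dimensional representation has a non-scalar element. -/
theorem exists_not_scalar_of_irreducible (h2 : Module.finrank k V = 2)
    (hirr : ∀ N : Submodule k V, (∀ g, ∀ v ∈ N, ρV g v ∈ N) → N = ⊥ ∨ N = ⊤) :
    ∃ g₀ : G, ¬ ∃ c : k, ρV g₀ = c • 1 := by
  by_contra hall
  have hall' : ∀ g : G, ∃ c : k, ρV g = c • 1 := by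
    intro g
    by_contra h
    exact hall ⟨g, h⟩
  haveI := nontrivial_of_finrank_two h2
  obtain ⟨v, hv⟩ := exists_ne (0 : V)
  have hstab : ∀ g, ∀ w ∈ Submodule.span k {v}, ρV g w ∈ Submodule.span k {v} := by
    intro g w hw
    obtain ⟨c, hc⟩ := hall' g
    rw [hc, LinearMap.smul_apply, Module.End.one_apply]
    exact Submodule.smul_mem _ _ hw
  rcases hirr _ hstab with h | h
  · exact hv ((Submodule.span_singleton_eq_bot).mp h)
  · have h1 : Module.finrank k (Submodule.span k {v}) = 1 := finrank_span_singleton hv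
    rw [h, finrank_top, h2] at h1
    norm_num at h1

/-- the span of the image of `ρV` is closed under multiplication. -/
theorem span_range_mul_mem {x y : End k V} (hx : x ∈ Submodule.span k (Set.range ρV))
    (hy : y ∈ Submodule.span k (Set.range ρV)) : x * y ∈ Submodule.span k (Set.range ρV) := by
  induction hx using Submodule.span_induction with
  | mem x hx =>
    obtain ⟨g, rfl⟩ := hx
    induction hy using Submodule.span_induction with
    | mem y hy =>
      obtain ⟨h, rfl⟩ := hy
      rw [← map_mul]
      exact Submodule.subset_span ⟨g * h, rfl⟩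
    | zero => rw [mul_zero]; exact Submodule.zero_mem _
    | add y₁ y₂ _ _ h₁ h₂ => rw [mul_add]; exact Submodule.add_mem _ h₁ h₂
    | smul c y _ h₁ => rw [mul_smul_comm]; exact Submodule.smul_mem _ c h₁
  | zero => rw [zero_mul]; exact Submodule.zero_mem _
  | add x₁ x₂ _ _ h₁ h₂ => rw [add_mul]; exact Submodule.add_mem _ h₁ h₂
  | smul c x _ h₁ => rw [smul_mul_assoc]; exact Submodule.smul_mem _ c h₁

theorem one_mem_span_range : (1 : End k V) ∈ Submodule.span k (Set.range ρV) :=
  Submodule.subset_span ⟨1, map_one ρV⟩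

/-- the orbit submodule `{a v | a ∈ span (range ρV)}` of a nonzero vector of an irreducible
representation is everything. -/
theorem exists_mem_span_apply_eq
    (hirr : ∀ N : Submodule k V, (∀ g, ∀ v ∈ N, ρV g v ∈ N) → N = ⊥ ∨ N = ⊤)
    {v : V} (hv : v ≠ 0) (w : V) : ∃ a ∈ Submodule.span k (Set.range ρV), a v = w := by
  let ev : End k V →ₗ[k] V := LinearMap.applyₗ v
  let N : Submodule k V := (Submodule.span k (Set.range ρV)).map ev
  have hstab : ∀ g, ∀ u ∈ N, ρV g u ∈ N := by
    rintro g u ⟨a, ha, rfl⟩
    exact ⟨ρV g * a, span_range_mul_mem ρV (Submodule.subset_span ⟨g, rfl⟩) ha, rfl⟩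
  have hvN : v ∈ N := ⟨1, one_mem_span_range ρV, rfl⟩
  rcases hirr N hstab with h | h
  · rw [h] at hvN
    exact absurd ((Submodule.mem_bot k).mp hvN) hv
  · have hw : w ∈ N := by rw [h]; exact Submodule.mem_top
    obtain ⟨a, ha, rfl⟩ := hw
    exact ⟨a, ha, rfl⟩

/-- **Absolute irreducibility from an involution of determinant `-1`.** -/
theorem span_eq_top_of_irreducible_of_involution (h2 : Module.finrank k V = 2)
    (hirr : ∀ N : Submodule k V, (∀ g, ∀ v ∈ N, ρV g v ∈ N) → N = ⊥ ∨ N = ⊤)
    (c : G) (hcc : ρV c * ρV c = 1) (hdet : LinearMap.det (ρV c) = -1) (htwo : (2 : k) ≠ 0) :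
    Submodule.span k (Set.range ρV) = ⊤ := by
  classical
  haveI := nontrivial_of_finrank_two h2
  set A : Submodule k (End k V) := Submodule.span k (Set.range ρV) with hA
  have hcA : ρV c ∈ A := Submodule.subset_span ⟨c, rfl⟩
  have h1A : (1 : End k V) ∈ A := one_mem_span_range ρV
  -- the idempotents
  set e : End k V := (2 : k)⁻¹ • (1 + ρV c) with he
  set e' : End k V := (2 : k)⁻¹ • (1 - ρV c) with he'
  have heA : e ∈ A := Submodule.smul_mem _ _ (Submodule.add_mem _ h1A hcA)
  have he'A : e' ∈ A := Submodule.smul_mem _ _ (Submodule.sub_mem _ h1A hcA)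
  have hsum : e + e' = 1 := by
    rw [he, he', ← smul_add, add_add_sub_cancel, ← two_smul k (1 : End k V), smul_smul,
      inv_mul_cancel₀ htwo, one_smul]
  have h4 : (2 : k)⁻¹ * (2 : k)⁻¹ * 2 = (2 : k)⁻¹ := by
    rw [mul_assoc, inv_mul_cancel₀ htwo, mul_one]
  have hee : e * e = e := by
    rw [he, smul_mul_smul_comm, add_mul, mul_add, mul_add, hcc]
    simp only [one_mul, mul_one]
    have : (1 : End k V) + ρV c + (ρV c + 1) = (2 : k) • (1 + ρV c) := by rw [two_smul]; abel
    rw [this, smul_smul, h4]
  have hee' : e * e' = 0 := by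
    rw [he, he', smul_mul_smul_comm, add_mul, mul_sub, mul_sub, hcc]
    simp only [one_mul, mul_one]
    have : (1 : End k V) - ρV c + (ρV c - 1) = 0 := by abel
    rw [this, smul_zero]
  have he'e : e' * e = 0 := by
    rw [he, he', smul_mul_smul_comm, sub_mul, mul_add, mul_add, hcc]
    simp only [one_mul, mul_one]
    have : (1 : End k V) + ρV c - (ρV c + 1) = 0 := by abel
    rw [this, smul_zero]
  have he'e' : e' * e' = e' := by
    have : e' = 1 - e := by rw [← hsum]; abel
    rw [this, sub_mul, mul_sub, mul_sub, one_mul, mul_one, hee]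
    abel
  -- both are nonzero
  have hm1 : (-1 : k) ≠ 1 := by
    intro h
    apply htwo
    have : (2 : k) = 1 - (-1) := by ring
    rw [this, h, sub_self]
  have he0 : e ≠ 0 := by
    intro h
    have h1 : (1 : End k V) + ρV c = 0 := by
      have := congrArg (fun x => (2 : k) • x) h
      simpa [he, smul_smul, mul_inv_cancel₀ htwo] using this
    have hc : ρV c = (-1 : k) • (1 : End k V) := by
      rw [neg_smul, one_smul]
      exact eq_neg_of_add_eq_zero_right h1
    rw [hc, LinearMap.det_smul, h2, map_one, mul_one] at hdet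
    apply hm1
    rw [← hdet]
    ring
  have he'0 : e' ≠ 0 := by
    intro h
    have h1 : (1 : End k V) - ρV c = 0 := by
      have := congrArg (fun x => (2 : k) • x) h
      simpa [he', smul_smul, mul_inv_cancel₀ htwo] using this
    have hc : ρV c = 1 := (sub_eq_zero.mp h1).symm
    rw [hc, map_one] at hdet
    exact hm1 hdet.symm
  -- eigenvectors
  obtain ⟨u, hu⟩ : ∃ u : V, e u ≠ 0 := by
    by_contra h
    apply he0
    refine LinearMap.ext fun u => ?_
    by_contra hne
    exact h ⟨u, hne⟩
  obtain ⟨u', hu'⟩ : ∃ u' : V, e' u' ≠ 0 := by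
    by_contra h
    apply he'0
    refine LinearMap.ext fun u => ?_
    by_contra hne
    exact h ⟨u, hne⟩
  set v := e u with hv
  set v' := e' u' with hv'
  have hev : e v = v := by rw [hv, ← Module.End.mul_apply, hee]
  have he'v : e' v = 0 := by rw [hv, ← Module.End.mul_apply, he'e, LinearMap.zero_apply]
  have he'v' : e' v' = v' := by rw [hv', ← Module.End.mul_apply, he'e']
  have hev' : e v' = 0 := by rw [hv', ← Module.End.mul_apply, hee', LinearMap.zero_apply]
  -- `v, v'` is a basis
  have hli : LinearIndependent k ![v, v'] := by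
    rw [LinearIndependent.pair_iff]
    intro s t hst
    have h1 := congrArg e hst
    have h2' := congrArg e' hst
    rw [map_add, map_smul, map_smul, hev, hev', smul_zero, add_zero, map_zero] at h1
    rw [map_add, map_smul, map_smul, he'v, he'v', smul_zero, zero_add, map_zero] at h2'
    exact ⟨(smul_eq_zero.mp h1).resolve_right hu, (smul_eq_zero.mp h2').resolve_right hu'⟩
  have hcard : Fintype.card (Fin 2) = Module.finrank k V := by rw [h2]; rfl
  let b : Basis (Fin 2) k V := basisOfLinearIndependentOfCardEqFinrank hli hcard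
  have hb0 : b 0 = v := by
    rw [coe_basisOfLinearIndependentOfCardEqFinrank]; rfl
  have hb1 : b 1 = v' := by
    rw [coe_basisOfLinearIndependentOfCardEqFinrank]; rfl
  -- two maps agreeing on `v`, `v'` are equal
  have hext : ∀ f g : End k V, f v = g v → f v' = g v' → f = g := by
    intro f g h0 h1
    refine b.ext fun i => ?_
    fin_cases i
    · simpa [hb0] using h0
    · simpa [hb1] using h1
  -- the ranges of `e`, `e'` are the lines through `v`, `v'`
  have hrange : ∀ x : V, ∃ s : k, e x = s • v := by
    intro x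
    refine ⟨b.repr x 0, ?_⟩
    conv_lhs => rw [← b.sum_repr x]
    rw [Fin.sum_univ_two, map_add, map_smul, map_smul, hb0, hb1, hev, hev', smul_zero, add_zero]
  have hrange' : ∀ x : V, ∃ s : k, e' x = s • v' := by
    intro x
    refine ⟨b.repr x 1, ?_⟩
    conv_lhs => rw [← b.sum_repr x]
    rw [Fin.sum_univ_two, map_add, map_smul, map_smul, hb0, hb1, he'v, he'v', smul_zero, zero_add]
  -- the off-diagonal matrix units
  obtain ⟨a₁, ha₁A, ha₁⟩ := exists_mem_span_apply_eq ρV hirr hu v'
  obtain ⟨a₂, ha₂A, ha₂⟩ := exists_mem_span_apply_eq ρV hirr hu' v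
  have hmul := fun {x y : End k V} (hx : x ∈ A) (hy : y ∈ A) => span_range_mul_mem ρV hx hy
  -- every endomorphism decomposes
  rw [eq_top_iff]
  intro f _
  have hdecomp : f = e * f * e + e * f * e' + e' * f * e + e' * f * e' := by
    have h1 : f = (e + e') * f * (e + e') := by rw [hsum, one_mul, mul_one]
    conv_lhs => rw [h1]
    rw [add_mul, add_mul, mul_add, mul_add]
    abel
  rw [hdecomp]
  refine Submodule.add_mem _ (Submodule.add_mem _ (Submodule.add_mem _ ?_ ?_) ?_) ?_
  · -- `e f e = s • e`
    obtain ⟨s, hs⟩ := hrange (f v)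
    have : e * f * e = s • e := by
      refine hext _ _ ?_ ?_
      · rw [Module.End.mul_apply, Module.End.mul_apply, hev, hs, LinearMap.smul_apply, hev]
      · rw [Module.End.mul_apply, Module.End.mul_apply, hev', map_zero, map_zero,
          LinearMap.smul_apply, hev', smul_zero]
    rw [this]
    exact Submodule.smul_mem _ _ heA
  · -- `e f e' = s • (e a₂ e')`
    obtain ⟨s, hs⟩ := hrange (f v')
    have : e * f * e' = s • (e * a₂ * e') := by
      refine hext _ _ ?_ ?_
      · rw [Module.End.mul_apply, Module.End.mul_apply, he'v, map_zero, map_zero,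
          LinearMap.smul_apply, Module.End.mul_apply, Module.End.mul_apply, he'v, map_zero,
          map_zero, smul_zero]
      · rw [Module.End.mul_apply, Module.End.mul_apply, he'v', hs, LinearMap.smul_apply,
          Module.End.mul_apply, Module.End.mul_apply, he'v', ha₂, hev]
    rw [this]
    exact Submodule.smul_mem _ _ (hmul (hmul heA ha₂A) he'A)
  · -- `e' f e = s • (e' a₁ e)`
    obtain ⟨s, hs⟩ := hrange' (f v)
    have : e' * f * e = s • (e' * a₁ * e) := by
      refine hext _ _ ?_ ?_
      · rw [Module.End.mul_apply, Module.End.mul_apply, hev, hs, LinearMap.smul_apply,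
          Module.End.mul_apply, Module.End.mul_apply, hev, ha₁, he'v']
      · rw [Module.End.mul_apply, Module.End.mul_apply, hev', map_zero, map_zero,
          LinearMap.smul_apply, Module.End.mul_apply, Module.End.mul_apply, hev', map_zero,
          map_zero, smul_zero]
    rw [this]
    exact Submodule.smul_mem _ _ (hmul (hmul he'A ha₁A) heA)
  · -- `e' f e' = s • e'`
    obtain ⟨s, hs⟩ := hrange' (f v')
    have : e' * f * e' = s • e' := by
      refine hext _ _ ?_ ?_
      · rw [Module.End.mul_apply, Module.End.mul_apply, he'v, map_zero, map_zero,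
          LinearMap.smul_apply, he'v, smul_zero]
      · rw [Module.End.mul_apply, Module.End.mul_apply, he'v', hs, LinearMap.smul_apply, he'v']
    rw [this]
    exact Submodule.smul_mem _ _ he'A

/-! ### The characteristic polynomial in rank two -/

theorem charpoly_eq_of_finrank_two (h2 : Module.finrank k V = 2) (f : End k V) :
    f.charpoly = X ^ 2 - C (LinearMap.trace k V f) * X + C (LinearMap.det f) := by
  classical
  let b : Basis (Fin 2) k V := Module.finBasisOfFinrankEq k V h2
  rw [← LinearMap.charpoly_toMatrix f b, Matrix.charpoly_fin_two,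
    ← LinearMap.trace_eq_matrix_trace k b f, LinearMap.det_toMatrix b f]

end Fermat.Agent.T1B.Embed48.Abstract
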