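/-
T1B (S44), EMBED44, E[p]-side (helper48), part 2: the Galois module `E[p](ℚ̄)` of an elliptic curve
`E / ℚ` (`Δ ≠ 0`), `p` an odd prime, in the shape of the hypotheses of
`GBLR83.Tate.exists_embedding` (`D := ZMod p`, `V := E[p]`).

`W` an integral model of `E` with the Eichler–Shimura relation on torsion (`hrel : RelQbar W`;
unconditionally `Fermat.Agent.FrobRel.relQbar W`).

* `rhoE E p : G_ℚ →* End (ZMod p) E[p]`;
* `finrank_tors`  : `finrank (ZMod p) E[p] = 2`;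
* `rhoE_cont`     : `rhoE` is trivial on an open subgroup (`ℚ(E[p])`);
* `rhoE_rel`      : `ρ(φ)² - a_ℓ(W) ρ(φ) + ℓ = 0` for a Frobenius element `φ` at a good `ℓ ≠ p`;
* `cycloBar p`    : the mod `p` cyclotomic character; `cycloBar_frob`, `cycloBar_conj`;
* `exists_trace_fun` : for ALL `g`: `ρ g + χ̄(g) ρ g⁻¹ = a g` (Frobenius density theorem + Lucas);
* `det_rhoE`, `trace_rhoE_frob`, **`rhoE_charpoly`** : if `E[p]` is irreducible then
  `det ρ = χ̄` (NO Weil pairing: the determinant trick `Abstract.det_trace_of_relation`) and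
  `charpoly (ρ φ) = X² - a_ℓ(W) X + ℓ`;
* **`rhoE_span`** : `span (range ρ) = End (E[p])` for irreducible `E[p]` (complex conjugation has
  determinant `χ̄(c) = -1`).
-/
import Mathlib
import Fermat.Prelude.Def_FLTPrelim_Modularity
import Fermat.Prelude.Def_FLTPrelim_GaloisRep
import Fermat.Prelude.Def_GaloisRep_ComplexConjugation
import Fermat.Agent.T1B.Embed48.Abstract
import Fermat.Agent.ES.Q58.TraceCong20
import Fermat.Agent.ES.Q58.CoordField13
import Fermat.Agent.ES.ALG.RelDense9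
import Fermat.Agent.ES.J.CycloChar8
import Fermat.Agent.ES.GAL.ChebQbar23
import Fermat.Agent.S05.TransportQ
import Fermat.Agent.DivPoly.CardEq29

set_option autoImplicit false
set_option linter.unusedSectionVars false
set_option linter.style.haveILetI false

open WeierstrassCurve WeierstrassCurve.Affine WeierstrassCurve.Affine.Point
open scoped WeierstrassCurve.Affine
open Polynomial

noncomputable section

namespace Fermat.Agent.T1B.Embed48.ESide

local notation "Qb" => AlgebraicClosure ℚ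
local notation "GQ" => (AlgebraicClosure ℚ ≃ₐ[ℚ] AlgebraicClosure ℚ)

open Fermat.Agent.ES.Q58.TraceCong20 Fermat.Agent.ES.Q58.CoordField13
  Fermat.Agent.ES.J.CycloChar8 Fermat.Agent.ES.ALG.RelDense9

variable (E : WeierstrassCurve ℚ) (p : ℕ) [hp : Fact p.Prime]

/-- `E[p](ℚ̄)`. -/
abbrev Tors : Type := Submodule.torsionBy ℤ (E⁄Qb).Point ((p : ℕ) : ℤ)

/-- **The mod `p` Galois representation of `E`.** -/
def rhoE : GQ →* Module.End (ZMod p) (Tors E p) where
  toFun σ := (DistribSMul.toAddMonoidHom (Tors E p) σ).toZModLinearMap p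
  map_one' := by
    refine LinearMap.ext fun x => ?_
    exact one_smul GQ x
  map_mul' σ τ := by
    refine LinearMap.ext fun x => ?_
    exact mul_smul σ τ x

variable {E p}

@[simp] theorem rhoE_apply (σ : GQ) (x : Tors E p) : rhoE E p σ x = σ • x := rfl

theorem coe_rhoE_apply (σ : GQ) (x : Tors E p) :
    ((rhoE E p σ x : Tors E p) : (E⁄Qb).Point) = σ • (x : (E⁄Qb).Point) := rfl

theorem nsmul_coe_tors (x : Tors E p) : p • (x : (E⁄Qb).Point) = 0 := by
  have := x.2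
  rwa [Submodule.mem_torsionBy_iff, natCast_zsmul] at this

variable (E p)

theorem odd_p (hp2 : p ≠ 2) : Odd p := hp.out.odd_of_ne_two hp2

theorem finite_tors (hp2 : p ≠ 2) : Finite (Tors E p) :=
  finite_torsionBy_odd (E := E) (odd_p p hp2)

theorem module_finite_tors (hp2 : p ≠ 2) : Module.Finite (ZMod p) (Tors E p) :=
  haveI := finite_tors E p hp2
  inferInstance

/-- `E[p]` is two-dimensional. -/
theorem finrank_tors (hΔ : E.Δ ≠ 0) (hp2 : p ≠ 2) : Module.finrank (ZMod p) (Tors E p) = 2 :=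
  Fermat.Agent.DivPoly.CardEq29.finrank_torsionBy_eq_two (W := (E⁄Qb))
    (baseChange_Δ_ne_zero hΔ) hp2

/-- **continuity**: `rhoE` is trivial on the absolute Galois group of `ℚ(E[p])`. -/
theorem rhoE_cont (hp2 : p ≠ 2) :
    ∃ L : IntermediateField ℚ Qb, FiniteDimensional ℚ L ∧
      ∀ σ : GQ, (∀ a ∈ L, σ a = a) → rhoE E p σ = 1 := by
  refine ⟨torsField E p, finiteDimensional_torsField (odd_p p hp2), fun σ hσ => ?_⟩
  refine LinearMap.ext fun x => ?_
  exact smul_torsion_eq_self_of_fix hσ x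

/-- two automorphisms agreeing on `ℚ(E[p])` have the same image. -/
theorem rhoE_eq_of_eqOn {σ τ : GQ} (h : ∀ x ∈ torsField E p, σ x = τ x) :
    rhoE E p σ = rhoE E p τ := by
  refine LinearMap.ext fun x => ?_
  exact smul_torsion_eq_of_eqOn h x

/-! ### The Eichler–Shimura relation on `E[p]` -/

section Rel

variable {E p} {W : WeierstrassCurve ℤ}

/-- the relation on points of `E`, transported from the integral model. -/
theorem rel_point (hW : W.IsIntegralModelOf E) (hrel : RelQbar W) (hp2 : p ≠ 2)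
    {ℓ : ℕ} (hℓ : ℓ.Prime) (hgood : W.IsGoodPrimeFor ℓ) (hℓp : ℓ ≠ p)
    {A : ValuationSubring Qb} (hA : A.LiesOverPrime ℓ) {φ : GQ} (hφ : A.IsFrobeniusAt φ ℓ)
    (Q : (E⁄Qb).Point) (hQ : p • Q = 0) :
    φ • φ • Q - W.apOfModel ℓ • (φ • Q) + ℓ • Q = 0 := by
  obtain ⟨C, hC⟩ := hW
  let ψ : ((W.map (Int.castRingHom ℚ))⁄Qb).Point ≃+ (E⁄Qb).Point :=
    Fermat.Agent.S05.TransportQ.pointEquivBC Qb hC.symm
  have hψ : ∀ (σ : GQ) (Q' : ((W.map (Int.castRingHom ℚ))⁄Qb).Point), ψ (σ • Q') = σ • ψ Q' :=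
    fun σ Q' => Fermat.Agent.S05.TransportQ.pointEquivBC_map (S := ℚ) hC.symm σ.toAlgHom Q'
  set Q' := ψ.symm Q with hQ'
  have hQ'0 : p • Q' = 0 := by rw [hQ', ← map_nsmul, hQ, _root_.map_zero]
  have hℓp' : ¬ ℓ ∣ p := fun h => hℓp ((Nat.prime_dvd_prime_iff_eq hℓ hp.out).mp h)
  have h := hrel ℓ hℓ hgood p (hp.out.odd_of_ne_two hp2) hℓp' A φ hA hφ Q' hQ'0
  have h' := congrArg ψ h
  simp only [_root_.map_zero, map_add, map_sub, map_zsmul, map_nsmul, hψ] at h'
  rw [hQ', AddEquiv.apply_symm_apply] at h'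
  exact h'

/-- **Eichler–Shimura on `E[p]`.** -/
theorem rhoE_rel (hW : W.IsIntegralModelOf E) (hrel : RelQbar W) (hp2 : p ≠ 2)
    {ℓ : ℕ} (hℓ : ℓ.Prime) (hgood : W.IsGoodPrimeFor ℓ) (hℓp : ℓ ≠ p)
    {A : ValuationSubring Qb} (hA : A.LiesOverPrime ℓ) {φ : GQ} (hφ : A.IsFrobeniusAt φ ℓ) :
    rhoE E p φ * rhoE E p φ - ((W.apOfModel ℓ : ℤ) : ZMod p) • rhoE E p φ +
      ((ℓ : ℕ) : ZMod p) • (1 : Module.End (ZMod p) (Tors E p)) = 0 := by
  refine LinearMap.ext fun x => ?_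
  apply Subtype.ext
  have h := rel_point hW hrel hp2 hℓ hgood hℓp hA hφ (x : (E⁄Qb).Point) (nsmul_coe_tors x)
  rw [LinearMap.add_apply, LinearMap.sub_apply, LinearMap.smul_apply, LinearMap.smul_apply,
    Module.End.mul_apply, Module.End.one_apply, LinearMap.zero_apply, Int.cast_smul_eq_zsmul,
    Nat.cast_smul_eq_nsmul]
  exact h

end Rel

/-! ### The mod `p` cyclotomic character -/

/-- the mod `p` cyclotomic character of `G_ℚ`. -/
def cycloBar : GQ →* (ZMod p)ˣ :=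
  (Units.map ((PadicInt.toZMod (p := p) : ℤ_[p] →+* ZMod p) : ℤ_[p] →* ZMod p)).comp (cyclo p)

theorem coe_cycloBar (σ : GQ) :
    ((cycloBar p σ : (ZMod p)ˣ) : ZMod p) = PadicInt.toZMod ((cyclo p σ : ℤ_[p]ˣ) : ℤ_[p]) := rfl

theorem cycloBar_frob {ℓ : ℕ} (hℓ : ℓ.Prime) (hℓp : ℓ ≠ p) {A : ValuationSubring Qb}
    (hA : A.LiesOverPrime ℓ) {φ : GQ} (hφ : A.IsFrobeniusAt φ ℓ) :
    ((cycloBar p φ : (ZMod p)ˣ) : ZMod p) = ((ℓ : ℕ) : ZMod p) := by
  rw [coe_cycloBar, cyclo_of_isFrobeniusAt p hℓ hℓp A hA hφ, map_natCast]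

theorem cycloBar_conj : ((cycloBar p complexConjugation : (ZMod p)ˣ) : ZMod p) = -1 := by
  rw [coe_cycloBar, cyclo_complexConjugation, map_neg, map_one]

/-- the mod `p` cyclotomic character is trivial on an open subgroup. -/
theorem cycloBar_cont :
    ∃ L : IntermediateField ℚ Qb, FiniteDimensional ℚ L ∧
      ∀ σ : GQ, (∀ x ∈ L, σ x = x) → cycloBar p σ = 1 := by
  obtain ⟨L, hL, H⟩ := cyclo_sub_one_mem p 1
  refine ⟨L, hL, fun σ hσ => ?_⟩
  apply Units.ext
  rw [coe_cycloBar, Units.val_one]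
  have h := H σ hσ
  rw [pow_one, ← PadicInt.maximalIdeal_eq_span_p, ← PadicInt.ker_toZMod, RingHom.mem_ker, map_sub,
    map_one, sub_eq_zero] at h
  exact h

/-! ### Density of Frobenius powers: the trace function -/

section Dense

variable {E p} {W : WeierstrassCurve ℤ}

theorem delta_model_ne_zero (hΔ : E.Δ ≠ 0) (hW : W.IsIntegralModelOf E) : W.Δ ≠ 0 := by
  obtain ⟨C, hC⟩ := hW
  intro h
  have h1 : (W.map (Int.castRingHom ℚ)).Δ = 0 := by rw [WeierstrassCurve.map_Δ, h, _root_.map_zero]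
  rw [← hC, WeierstrassCurve.variableChange_Δ] at h1
  rcases mul_eq_zero.mp h1 with h2 | h2
  · exact (pow_ne_zero 12 (Units.ne_zero _)) h2
  · exact hΔ h2

/-- the set of Frobenius elements at good primes `≠ p`. -/
def FrobSet (W : WeierstrassCurve ℤ) (p : ℕ) : Set GQ :=
  {φ | ∃ (ℓ : ℕ) (A : ValuationSubring Qb), ℓ.Prime ∧ W.IsGoodPrimeFor ℓ ∧ ℓ ≠ p ∧
    A.LiesOverPrime ℓ ∧ A.IsFrobeniusAt φ ℓ}

open Classical in
/-- `a_ℓ(W)` for "the" prime of a Frobenius element. -/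
def aFrob (W : WeierstrassCurve ℤ) (p : ℕ) (φ : GQ) : ZMod p :=
  if h : φ ∈ FrobSet W p then ((W.apOfModel h.choose : ℤ) : ZMod p) else 0

/-- **The trace function**: for every `g ∈ G_ℚ` the endomorphism `ρ g + χ̄(g) ρ g⁻¹` of `E[p]` is a
scalar. -/
theorem exists_trace_fun (hΔ : E.Δ ≠ 0) (hW : W.IsIntegralModelOf E) (hrel : RelQbar W)
    (hp2 : p ≠ 2) :
    ∃ a : GQ → ZMod p, ∀ g : GQ,
      rhoE E p g + ((cycloBar p g : (ZMod p)ˣ) : ZMod p) • rhoE E p g⁻¹ =
        a g • (1 : Module.End (ZMod p) (Tors E p)) := by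
  classical
  haveI := module_finite_tors E p hp2
  have hWΔ := delta_model_ne_zero hΔ hW
  have hΦ : ∀ σ ∈ FrobSet W p, rhoE E p σ * rhoE E p σ - aFrob W p σ • rhoE E p σ +
      ((cycloBar p σ : (ZMod p)ˣ) : ZMod p) • (1 : Module.End (ZMod p) (Tors E p)) = 0 := by
    intro σ hσ
    have hspec := hσ.choose_spec
    obtain ⟨A, hℓ, hgood, hℓp, hA, hφ⟩ := hspec
    rw [aFrob, dif_pos hσ, cycloBar_frob p hℓ hℓp hA hφ]
    exact rhoE_rel hW hrel hp2 hℓ hgood hℓp hA hφ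
  obtain ⟨Lc, hLc, Hc⟩ := cycloBar_cont p
  have hdense : ∀ (n : ℕ) (g : GQ), ∃ σ ∈ FrobSet W p, ∃ j : ℕ,
      EndCongr ((fun _ => (⊥ : Ideal (ZMod p))) n) (rhoE E p g) (rhoE E p σ ^ j) ∧
      ((cycloBar p g : (ZMod p)ˣ) : ZMod p) - ((cycloBar p σ : (ZMod p)ˣ) : ZMod p) ^ j ∈
        (fun _ => (⊥ : Ideal (ZMod p))) n := by
    intro n g
    haveI := hLc
    haveI : FiniteDimensional ℚ (torsField E p) := finiteDimensional_torsField (odd_p p hp2)
    haveI : FiniteDimensional ℚ (torsField E p ⊔ Lc : IntermediateField ℚ Qb) :=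
      IntermediateField.finiteDimensional_sup _ _
    obtain ⟨ℓ, A, φ, j, hℓ, hℓT, hA, hφ, hfix⟩ :=
      Fermat.Agent.ES.GAL.ChebQbar23.exists_frobenius_pow_eq_on (torsField E p ⊔ Lc) g
        (W.Δ.natAbs.primeFactors ∪ {p})
    have hℓp : ℓ ≠ p := fun h => hℓT (Finset.mem_union_right _ (Finset.mem_singleton.mpr h))
    have hgood : W.IsGoodPrimeFor ℓ := by
      intro hdvd
      apply hℓT
      refine Finset.mem_union_left _ (Nat.mem_primeFactors.mpr ⟨hℓ, ?_, ?_⟩)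
      · exact Int.natCast_dvd.mp hdvd
      · exact Int.natAbs_ne_zero.mpr hWΔ
    refine ⟨φ, ⟨ℓ, A, hℓ, hgood, hℓp, hA, hφ⟩, j, ?_, ?_⟩
    · have : rhoE E p g = rhoE E p φ ^ j := by
        rw [← map_pow]
        exact (rhoE_eq_of_eqOn E p fun x hx => hfix x
          ((le_sup_left : torsField E p ≤ torsField E p ⊔ Lc) hx)).symm
      rw [this]
      exact EndCongr.refl _ _
    · have h1 : cycloBar p (g⁻¹ * φ ^ j) = 1 := by
        refine Hc _ fun x hx => ?_
        rw [AlgEquiv.mul_apply, hfix x ((le_sup_right : Lc ≤ torsField E p ⊔ Lc) hx)]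
        exact g.symm_apply_apply x
      have h2 : cycloBar p g = cycloBar p φ ^ j := by
        rw [map_mul, map_inv, inv_mul_eq_one, map_pow] at h1
        exact h1
      rw [h2, Units.val_pow_eq_pow_val, sub_self]
      exact Ideal.zero_mem _
  obtain ⟨a, ha, -⟩ := exists_trace_fun_of_dense (rhoE E p) (cycloBar p)
    (fun _ => (⊥ : Ideal (ZMod p))) (fun x hx => (Submodule.mem_bot _).mp (hx 0))
    (FrobSet W p) (aFrob W p) hΦ hdense
  exact ⟨a, ha⟩

end Dense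

/-! ### Irreducible `E[p]`: determinant, characteristic polynomials, span -/

section Irr

variable {E p} {W : WeierstrassCurve ℤ}

/-- the Prelude's irreducibility in the form used by `Abstract`. -/
theorem irr_of_galoisRepIsIrreducible
    (hirr : GaloisRepIsIrreducible (K := AlgebraicClosure ℚ) ℚ E p) :
    ∀ N : Submodule (ZMod p) (Tors E p), (∀ g, ∀ v ∈ N, rhoE E p g v ∈ N) → N = ⊥ ∨ N = ⊤ :=
  fun N hN => hirr.2 N hN

/-- **`det ρ_{E,p} = χ̄_p`** (no Weil pairing). -/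
theorem det_rhoE (hΔ : E.Δ ≠ 0) (hW : W.IsIntegralModelOf E) (hrel : RelQbar W) (hp2 : p ≠ 2)
    (hirr : GaloisRepIsIrreducible (K := AlgebraicClosure ℚ) ℚ E p) (g : GQ) :
    LinearMap.det (rhoE E p g) = ((cycloBar p g : (ZMod p)ˣ) : ZMod p) := by
  haveI := module_finite_tors E p hp2
  obtain ⟨a, ha⟩ := exists_trace_fun hΔ hW hrel hp2
  have h2 := finrank_tors E p hΔ hp2
  exact (Abstract.det_trace_of_relation (rhoE E p) h2 (cycloBar p) a ha
    (Abstract.exists_not_scalar_of_irreducible (rhoE E p) h2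
      (irr_of_galoisRepIsIrreducible hirr)) g).1

/-- the trace of a Frobenius element at a good prime `ℓ ≠ p` is `a_ℓ(W)`. -/
theorem trace_rhoE_frob (hΔ : E.Δ ≠ 0) (hW : W.IsIntegralModelOf E) (hrel : RelQbar W)
    (hp2 : p ≠ 2) (hirr : GaloisRepIsIrreducible (K := AlgebraicClosure ℚ) ℚ E p)
    {ℓ : ℕ} (hℓ : ℓ.Prime) (hgood : W.IsGoodPrimeFor ℓ) (hℓp : ℓ ≠ p)
    {A : ValuationSubring Qb} (hA : A.LiesOverPrime ℓ) {φ : GQ} (hφ : A.IsFrobeniusAt φ ℓ) :
    LinearMap.trace (ZMod p) (Tors E p) (rhoE E p φ) = ((W.apOfModel ℓ : ℤ) : ZMod p) := by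
  haveI := module_finite_tors E p hp2
  have h2 := finrank_tors E p hΔ hp2
  have hdet := det_rhoE hΔ hW hrel hp2 hirr φ
  rw [cycloBar_frob p hℓ hℓp hA hφ] at hdet
  have hCH := Fermat.Agent.Flat83.CarayolBLR.end_add_det_smul_inv h2 (rhoE E p φ) (rhoE E p φ⁻¹)
    (Abstract.rho_mul_inv (rhoE E p) φ)
  have hq := rel_of_quadratic (Abstract.rho_mul_inv (rhoE E p) φ)
    (rhoE_rel hW hrel hp2 hℓ hgood hℓp hA hφ)
  rw [hdet, hq] at hCH
  have h0 : (((W.apOfModel ℓ : ℤ) : ZMod p) - LinearMap.trace (ZMod p) (Tors E p) (rhoE E p φ)) •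
      (1 : Module.End (ZMod p) (Tors E p)) = 0 := by rw [sub_smul, hCH, sub_self]
  exact (sub_eq_zero.mp ((Abstract.smul_one_eq_zero_iff h2 _).mp h0)).symm

/-- **The characteristic polynomial of Frobenius on `E[p]`**, in the shape of `hchar` of
`GBLR83.Tate.exists_embedding`. -/
theorem rhoE_charpoly [Module.Finite (ZMod p) (Tors E p)] (hΔ : E.Δ ≠ 0)
    (hW : W.IsIntegralModelOf E) (hrel : RelQbar W) (hp2 : p ≠ 2) (hirr : GaloisRepIsIrreducible (K := AlgebraicClosure ℚ) ℚ E p)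
    {ℓ : ℕ} (hℓ : ℓ.Prime) (hgood : W.IsGoodPrimeFor ℓ) (hℓp : ℓ ≠ p)
    {A : ValuationSubring Qb} (hA : A.LiesOverPrime ℓ) {φ : GQ} (hφ : A.IsFrobeniusAt φ ℓ) :
    (rhoE E p φ).charpoly =
      X ^ 2 - C (((W.apOfModel ℓ : ℤ) : ZMod p)) * X + C ((ℓ : ℕ) : ZMod p) := by
  rw [Abstract.charpoly_eq_of_finrank_two (finrank_tors E p hΔ hp2),
    trace_rhoE_frob hΔ hW hrel hp2 hirr hℓ hgood hℓp hA hφ, det_rhoE hΔ hW hrel hp2 hirr,
    cycloBar_frob p hℓ hℓp hA hφ]

/-- **Absolute irreducibility**: the image of `ρ_{E,p}` spans `End (E[p])`. -/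
theorem rhoE_span (hΔ : E.Δ ≠ 0) (hW : W.IsIntegralModelOf E) (hrel : RelQbar W)
    (hp2 : p ≠ 2) (hirr : GaloisRepIsIrreducible (K := AlgebraicClosure ℚ) ℚ E p) :
    Submodule.span (ZMod p) (Set.range (rhoE E p)) = ⊤ := by
  haveI := module_finite_tors E p hp2
  have h2 := finrank_tors E p hΔ hp2
  have htwo : (2 : ZMod p) ≠ 0 := by
    intro h
    have h' : ((2 : ℕ) : ZMod p) = 0 := by exact_mod_cast h
    rw [ZMod.natCast_eq_zero_iff] at h'
    exact hp2 ((Nat.prime_dvd_prime_iff_eq hp.out Nat.prime_two).mp h')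
  refine Abstract.span_eq_top_of_irreducible_of_involution (rhoE E p) h2
    (irr_of_galoisRepIsIrreducible hirr) complexConjugation ?_ ?_ htwo
  · rw [← map_mul, complexConjugation_mul_self, map_one]
  · rw [det_rhoE hΔ hW hrel hp2 hirr, cycloBar_conj]

end Irr

end Fermat.Agent.T1B.Embed48.ESide
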