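/-
T1B (S44), EMBED44, E[p]-side (helper48), part 3: the statements of `ESide.lean` for the PRELUDE's
representation `ρE := WeierstrassCurve.Affine.Point.galoisRepModuleEnd ℚ E p` (`K := ℚ̄`), with the
Eichler–Shimura relation `FrobRel.relQbar` plugged in (unconditional), and the Frey specialisation
(`Top68.FreyTors P`).  These are the E[p]-side hypotheses `hV / htwo / hspan / hcont / hchar` of
`GBLR83.Tate.exists_embedding` for `D := ZMod p`, `V := E[p]`.
-/
import Mathlib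
import Fermat.Prelude.Def_EllipticCurve_FrobeniusTrace
import Fermat.Agent.T1B.Embed48.ESide
import Fermat.Agent.FrobRel.RelQbar
import Fermat.Prelude.Def_FLTPrelim_FreyPackage

set_option autoImplicit false
set_option linter.unusedSectionVars false
set_option linter.style.haveILetI false

open WeierstrassCurve WeierstrassCurve.Affine WeierstrassCurve.Affine.Point
open scoped WeierstrassCurve.Affine
open Polynomial

noncomputable section

namespace Fermat.Agent.T1B.Embed48.Frey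

local notation "Qb" => AlgebraicClosure ℚ
local notation "GQ" => (AlgebraicClosure ℚ ≃ₐ[ℚ] AlgebraicClosure ℚ)

open Fermat.Agent.T1B.Embed48.ESide

/-- The Prelude's mod `p` representation on `E[p](ℚ̄)`. -/
abbrev ρE (E : WeierstrassCurve ℚ) (p : ℕ) :
    GQ →* Module.End (ZMod p) (Submodule.torsionBy ℤ (E⁄Qb).Point ((p : ℕ) : ℤ)) :=
  WeierstrassCurve.Affine.Point.galoisRepModuleEnd (K := Qb) ℚ E p

theorem rhoE_eq (E : WeierstrassCurve ℚ) (p : ℕ) [Fact p.Prime] : rhoE E p = ρE E p :=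
  MonoidHom.ext fun _ => LinearMap.ext fun _ => rfl

variable (E : WeierstrassCurve ℚ) {W : WeierstrassCurve ℤ} {p : ℕ} [hp : Fact p.Prime]

/-- `E[p]` is a finite `𝔽_p`-module (`p` odd). -/
theorem module_finite (hp2 : p ≠ 2) :
    Module.Finite (ZMod p) (Submodule.torsionBy ℤ (E⁄Qb).Point ((p : ℕ) : ℤ)) :=
  module_finite_tors E p hp2

/-- **(hV)** -/
theorem finrank_eq_two (hΔ : E.Δ ≠ 0) (hp2 : p ≠ 2) :
    Module.finrank (ZMod p) (Submodule.torsionBy ℤ (E⁄Qb).Point ((p : ℕ) : ℤ)) = 2 :=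
  finrank_tors E p hΔ hp2

/-- **(htwo)** -/
theorem two_ne_zero_zmod (hp2 : p ≠ 2) : (2 : ZMod p) ≠ 0 := by
  intro h
  have h' : ((2 : ℕ) : ZMod p) = 0 := by exact_mod_cast h
  rw [ZMod.natCast_eq_zero_iff] at h'
  exact hp2 ((Nat.prime_dvd_prime_iff_eq hp.out Nat.prime_two).mp h')

/-- **(hcont)** -/
theorem cont (hp2 : p ≠ 2) :
    ∃ L : IntermediateField ℚ Qb, FiniteDimensional ℚ L ∧
      ∀ σ : GQ, (∀ a ∈ L, σ a = a) → ρE E p σ = 1 := by
  rw [← rhoE_eq]
  exact rhoE_cont E p hp2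

variable {E}

/-- **(hchar)**: the characteristic polynomial of a Frobenius element at a good prime `ℓ ≠ p` on
`E[p]`, `E[p]` irreducible (helper83's spec (E-C), verbatim up to the instance argument). -/
theorem charpoly_frobenius
    [Module.Finite (ZMod p) (Submodule.torsionBy ℤ (E⁄Qb).Point ((p : ℕ) : ℤ))] (hΔ : E.Δ ≠ 0)
    (hW : W.IsIntegralModelOf E) (hp2 : p ≠ 2)
    (hirr : GaloisRepIsIrreducible (K := AlgebraicClosure ℚ) ℚ E p)
    {ℓ : ℕ} (hℓ : ℓ.Prime) (hgood : W.IsGoodPrimeFor ℓ) (hℓp : ℓ ≠ p)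
    (A : ValuationSubring Qb) (hA : A.LiesOverPrime ℓ) (φ : GQ) (hφ : A.IsFrobeniusAt φ ℓ) :
    (ρE E p φ).charpoly =
      X ^ 2 - C (((W.apOfModel ℓ : ℤ) : ZMod p)) * X + C ((ℓ : ℕ) : ZMod p) := by
  rw [← rhoE_eq]
  exact rhoE_charpoly hΔ hW (Fermat.Agent.FrobRel.relQbar W) hp2 hirr hℓ hgood hℓp hA hφ

/-- `det ρ_{E,p} = χ̄_p` (mod `p` cyclotomic character `ESide.cycloBar p`). -/
theorem det_eq_cycloBar (hΔ : E.Δ ≠ 0) (hW : W.IsIntegralModelOf E) (hp2 : p ≠ 2)
    (hirr : GaloisRepIsIrreducible (K := AlgebraicClosure ℚ) ℚ E p) (g : GQ) :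
    LinearMap.det (ρE E p g) = ((cycloBar p g : (ZMod p)ˣ) : ZMod p) := by
  rw [← rhoE_eq]
  exact det_rhoE hΔ hW (Fermat.Agent.FrobRel.relQbar W) hp2 hirr g

/-- **(hspan)**: absolute irreducibility in span form. -/
theorem span_eq_top (hΔ : E.Δ ≠ 0) (hW : W.IsIntegralModelOf E) (hp2 : p ≠ 2)
    (hirr : GaloisRepIsIrreducible (K := AlgebraicClosure ℚ) ℚ E p) :
    Submodule.span (ZMod p) (Set.range (ρE E p)) = ⊤ := by
  rw [← rhoE_eq]
  exact rhoE_span hΔ hW (Fermat.Agent.FrobRel.relQbar W) hp2 hirr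

/-! ### The Frey curve -/

section FreyCurve

variable (P : FreyPackage)

theorem frey_p_ne_two : P.p ≠ 2 := by
  have := P.hp5
  omega

/-- The discriminant of the Frey curve (copy of `ESide48.freyCurve_disc_eq`, to keep this file's
import closure light). -/
theorem frey_disc_eq :
    P.freyCurve.Δ = ((P.a : ℚ) ^ P.p * (P.b : ℚ) ^ P.p * (P.c : ℚ) ^ P.p) ^ 2 / 256 := by
  have hc : (P.c : ℚ) ^ P.p = (P.a : ℚ) ^ P.p + (P.b : ℚ) ^ P.p := by
    have := P.hFLT
    exact_mod_cast this.symm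
  rw [hc]
  simp only [WeierstrassCurve.Δ, WeierstrassCurve.b₂, WeierstrassCurve.b₄, WeierstrassCurve.b₆,
    WeierstrassCurve.b₈, FreyPackage.freyCurve]
  ring

theorem frey_disc_ne_zero : P.freyCurve.Δ ≠ 0 := by
  rw [frey_disc_eq]
  have ha : (P.a : ℚ) ≠ 0 := by exact_mod_cast P.ha0
  have hb : (P.b : ℚ) ≠ 0 := by exact_mod_cast P.hb0
  have hc : (P.c : ℚ) ≠ 0 := by exact_mod_cast P.hc0
  positivity

end FreyCurve

end Fermat.Agent.T1B.Embed48.Frey
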